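/-
Fermat/Agent/MAZ/FormalDiv47/Inst.lean  (helper47) -- MAZ, brick T1B-U2 (FORMAL'), instance.

For the hub vocabulary of T1B (`c0 : TwoChart W B0 B1 B01`, Čech datum `D`, a DVR `O` over `W` with
`(p : O) ∈ 𝔪_O`, complete, with `CoordInjective c0 O` (formal functions) and `AlgCoord c0 O D.b`
(algebraisation, `Alg81.algCoord_of_isDomain`)):
* `pow_eq_one_of_pJ_eq_one D 𝔪 p hp` : the kernels of the transition maps of helper11's tower `Jn D 𝔪 n`
  are killed by `p` (first order parametrisation `Toric11.lam`); with `Toric11.base_J`, `uJ_compat`,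
  `uJ_inj`, `exists_uJ_eq` these are the hypotheses of helper5's abstract half
  `MAZ/Formal5/Divisible.Tower.pow_bijective_of_complete`;
* `existsUnique_pow_eq_J1` : **`J̃¹(O) = ker (red : Pic X_O → Pic X_κ)` is uniquely `r`-divisible** for
  `r` coprime to `p`;
* `existsUnique_pow_eq_J1L`, `exists_pow_eq_J1L`, `eq_one_of_pow_eq_one_J1L` : the same for
  `J¹(L) = RedN3.J1L c0 O L P00` (given `ExtInjective00` and `J̃¹(O) ≤ P00`), the shape of the hypotheses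
  `hdiv`, `hinj` of `MAZ/K3Abs43.exists_division_point_of_torsion`.
-/
import Mathlib
import Fermat.Agent.MAZ.Formal5.Divisible
import Fermat.Agent.T1B.Toric11.AlgLim
import Fermat.Agent.T1B.Toric11.FirstOrder
import Fermat.Agent.T1B.RedN3.Shell

set_option autoImplicit false
set_option maxHeartbeats 400000
set_option linter.unusedSectionVars false
set_option linter.unusedVariables false

open TensorProduct

noncomputable section

namespace Fermat.Agent.MAZ.FormalDiv47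

open Fermat.Agent.Jac Fermat.Agent.Jac.JGroup85Pic
open Fermat.Agent.Jac.BaseChange75
open Fermat.Agent.T1.RedIface75 Fermat.Agent.T1.CechFormal70
open Fermat.Agent.T1B.Toric11 Fermat.Agent.T1B.RedN3
open scoped Fermat.Agent.Jac.BaseChange75

universe u

variable {W B0 B1 B01 : Type u} [CommRing W] [CommRing B0] [CommRing B1] [CommRing B01]
  [Algebra W B0] [Algebra W B1] [Algebra W B01]
  {g : ℕ}

/-! ### The tower hypotheses -/

section Tower

variable (D : CechData W B0 B1 B01 g) {O : Type u} [CommRing O] [Algebra W O] (𝔪 : Ideal O)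

/-- `p ∈ 𝔪` kills `kerI 𝔪 n = 𝔪^n/𝔪^(n+1)`. -/
theorem natCast_mul_eq_zero_of_mem_kerI (p : ℕ) (hp : (p : O) ∈ 𝔪) (n : ℕ) {x : Tr 𝔪 (n + 1)}
    (hx : x ∈ kerI 𝔪 n) : (p : Tr 𝔪 (n + 1)) * x = 0 := by
  have hpm : (p : Tr 𝔪 (n + 1)) ∈ mQ 𝔪 (n + 1) := by
    have h := Ideal.mem_map_of_mem (Ideal.Quotient.mk (𝔪 ^ (n + 1))) hp
    rwa [map_natCast] at h
  rw [mul_comm]
  exact mul_eq_zero_of_mem_kerI 𝔪 n hx hpm

/-- **The kernels of the transition maps of the tower `Jn D 𝔪 n` are killed by `p`** when `p ∈ 𝔪`. -/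
theorem pow_eq_one_of_pJ_eq_one (p : ℕ) (hp : (p : O) ∈ 𝔪) (n : ℕ) (z : Jn D 𝔪 (n + 1))
    (hz : pJ D 𝔪 n z = 1) : z ^ p = 1 := by
  obtain ⟨a, rfl⟩ := exists_lam_of_pJ_eq_one D 𝔪 n z hz
  rw [← map_pow]
  have ha : a ^ p = 1 := by
    apply Multiplicative.toAdd.injective
    rw [toAdd_pow, toAdd_one]
    funext i
    apply Subtype.ext
    rw [Pi.smul_apply, Pi.zero_apply]
    show ((p • (Multiplicative.toAdd a i) : kerI 𝔪 n) : Tr 𝔪 (n + 1)) = 0
    rw [AddSubmonoidClass.coe_nsmul, nsmul_eq_mul]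
    exact natCast_mul_eq_zero_of_mem_kerI 𝔪 p hp n (Multiplicative.toAdd a i).2
  rw [ha, map_one]

end Tower

/-! ### The honest points -/

section Honest

variable [Algebra B0 B01] [Algebra B1 B01] [IsScalarTower W B0 B01] [IsScalarTower W B1 B01]
  (c0 : TwoChart W B0 B1 B01) (D : CechData W B0 B1 B01 g)
  (hρ0 : ∀ x, D.ρ0 x = algebraMap B0 B01 x) (hρ1 : ∀ x, D.ρ1 x = algebraMap B1 B01 x)
  (O : Type u) [CommRing O] [IsDomain O] [IsDiscreteValuationRing O] [Algebra W O]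

local notation "𝔪O" => IsLocalRing.maximalIdeal O

include D hρ0 hρ1 in
/-- **(FORMAL')**: the `r`-th power map is bijective on the kernel of reduction `J̃¹(O)`, `r` coprime to
the residue characteristic `p`, for a complete `O`. -/
theorem pow_bijective_J1 (hInj : CoordInjective c0 O) (hA : AlgCoord c0 O D.b)
    [IsAdicComplete 𝔪O O] {p r : ℕ} (hp : (p : O) ∈ 𝔪O) (hr : Nat.Coprime r p) :
    Function.Bijective (fun z : J1 c0 O => z ^ r) :=
  Fermat.Agent.MAZ.Formal5.Tower.pow_bijective_of_complete (J := fun n => Jn D 𝔪O n)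
    (pJ D 𝔪O) (uJ c0 D hρ0 hρ1 O) p r hr
    (base_J D 𝔪O) (pow_eq_one_of_pJ_eq_one D 𝔪O p hp) (uJ_compat c0 D hρ0 hρ1 O)
    (uJ_inj c0 D hρ0 hρ1 O hInj) (exists_uJ_eq c0 D hρ0 hρ1 O hA)

include D hρ0 hρ1 in
/-- **(FORMAL')**: `J̃¹(O)` is uniquely `r`-divisible. -/
theorem existsUnique_pow_eq_J1 (hInj : CoordInjective c0 O) (hA : AlgCoord c0 O D.b)
    [IsAdicComplete 𝔪O O] {p r : ℕ} (hp : (p : O) ∈ 𝔪O) (hr : Nat.Coprime r p) (y : J1 c0 O) :
    ∃! z : J1 c0 O, z ^ r = y := by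
  have hb := pow_bijective_J1 c0 D hρ0 hρ1 O hInj hA hp hr
  obtain ⟨z, hz⟩ := hb.2 y
  exact ⟨z, hz, fun z' hz' => hb.1 (hz'.trans hz.symm)⟩

/-! ### The form on the generic fibre: `J¹(L)` -/

variable (L : Type u) [CommRing L] [Algebra W L] [Algebra O L] [IsScalarTower W O L]
  {P00 : Subgroup (PicX c0 O)}

include D hρ0 hρ1 in
/-- **Divisibility of `J¹(L)`.** -/
theorem exists_pow_eq_J1L (hP : J1 c0 O ≤ P00)
    (hInj : CoordInjective c0 O) (hA : AlgCoord c0 O D.b)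
    [IsAdicComplete 𝔪O O] {p r : ℕ} (hp : (p : O) ∈ 𝔪O) (hr : Nat.Coprime r p)
    (x : PicX c0 L) (hx : x ∈ J1L c0 O L P00) :
    ∃ x' ∈ J1L c0 O L P00, x' ^ r = x := by
  obtain ⟨y, hy, rfl⟩ := Subgroup.mem_map.1 hx
  obtain ⟨z, hz⟩ := ((pow_bijective_J1 c0 D hρ0 hρ1 O hInj hA hp hr).2 ⟨y, hy.2⟩)
  refine ⟨PicX.map c0 O L (z : PicX c0 O),
    Subgroup.mem_map_of_mem _ ⟨hP z.2, z.2⟩, ?_⟩
  rw [← map_pow]
  congr 1
  exact congrArg Subtype.val hz

include D hρ0 hρ1 in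
/-- **No `r`-torsion in `J¹(L)`.** -/
theorem eq_one_of_pow_eq_one_J1L (hinj : ExtInjective00 c0 O L P00)
    (hInj : CoordInjective c0 O) (hA : AlgCoord c0 O D.b)
    [IsAdicComplete 𝔪O O] {p r : ℕ} (hp : (p : O) ∈ 𝔪O) (hr : Nat.Coprime r p)
    (x : PicX c0 L) (hx : x ∈ J1L c0 O L P00) (hxr : x ^ r = 1) : x = 1 := by
  obtain ⟨y, hy, rfl⟩ := Subgroup.mem_map.1 hx
  rw [← map_pow] at hxr
  have h1 : y ^ r = 1 := hinj _ (P00.pow_mem hy.1 r) hxr
  have h2 : (⟨y, hy.2⟩ : J1 c0 O) ^ r = (1 : J1 c0 O) ^ r := by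
    rw [one_pow]
    exact Subtype.ext h1
  have h3 := (pow_bijective_J1 c0 D hρ0 hρ1 O hInj hA hp hr).1 h2
  have h4 : y = 1 := congrArg Subtype.val h3
  rw [h4, map_one]

include D hρ0 hρ1 in
/-- **(FORMAL'), `J¹(L)` form**: `J¹(L)` is uniquely `r`-divisible. -/
theorem existsUnique_pow_eq_J1L (hinj : ExtInjective00 c0 O L P00) (hP : J1 c0 O ≤ P00)
    (hInj : CoordInjective c0 O) (hA : AlgCoord c0 O D.b)
    [IsAdicComplete 𝔪O O] {p r : ℕ} (hp : (p : O) ∈ 𝔪O) (hr : Nat.Coprime r p)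
    (x : PicX c0 L) (hx : x ∈ J1L c0 O L P00) :
    ∃! x' : PicX c0 L, x' ∈ J1L c0 O L P00 ∧ x' ^ r = x := by
  obtain ⟨x', hx', hx'r⟩ := exists_pow_eq_J1L c0 D hρ0 hρ1 O L hP hInj hA hp hr x hx
  refine ⟨x', ⟨hx', hx'r⟩, fun x'' h'' => ?_⟩
  have h1 : (x'' * x'⁻¹) ^ r = 1 := by
    rw [mul_pow, inv_pow, h''.2, hx'r, mul_inv_cancel]
  have h2 := eq_one_of_pow_eq_one_J1L c0 D hρ0 hρ1 O L hinj hInj hA hp hr _
    ((J1L c0 O L P00).mul_mem h''.1 ((J1L c0 O L P00).inv_mem hx')) h1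
  exact mul_inv_eq_one.1 h2

end Honest

end Fermat.Agent.MAZ.FormalDiv47
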